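import Mathlib
import Fermat.Agent.MU.S24.GensExp

section MergeWrap_Lib_BadRed_ALFun -- from Lib/BadRed/ALFun.lean

set_option autoImplicit false

noncomputable section

namespace Fermat.Agent.AtkinLehner

open UpperHalfPlane Fermat.Agent.S24
open scoped MatrixGroups

/-- the data of an Atkin–Lehner matrix `W = (Q a, b; Q R, Q)`, `Q a - R b = 1`. -/
structure ALData where
  Q : ℕ
  R : ℕ
  a : ℤ
  b : ℤ
  hQ : 0 < Q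
  hR : 0 < R
  hdet : (Q : ℤ) * a - (R : ℤ) * b = 1

namespace ALData

variable (D : ALData)

theorem exists_of_coprime {Q R : ℕ} (hQ : 0 < Q) (hR : 0 < R) (h : Nat.Coprime Q R) :
    ∃ D : ALData, D.Q = Q ∧ D.R = R := by
  have hg : Int.gcd (Q : ℤ) (R : ℤ) = 1 := by
    rw [Int.gcd_natCast_natCast]
    exact h
  have hb := Int.gcd_eq_gcd_ab (Q : ℤ) (R : ℤ)
  rw [hg] at hb
  refine ⟨⟨Q, R, Int.gcdA Q R, -Int.gcdB Q R, hQ, hR, ?_⟩, rfl, rfl⟩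
  push_cast at hb
  linarith

theorem denom_ne_zero (τ : ℍ) :
    ((D.Q : ℂ) * (D.R : ℂ)) * (τ : ℂ) + (D.Q : ℂ) ≠ 0 := by
  have h := GensExp.int_linear_ne_zero ((D.Q : ℤ) * (D.R : ℤ)) (D.Q : ℤ)
    (Or.inr (by exact_mod_cast D.hQ.ne')) τ
  push_cast at h
  exact h

/-- the Möbius transformation `τ ↦ (Q a τ + b) / (Q R τ + Q)`. -/
def W (τ : ℍ) : ℍ :=
  ⟨((D.Q : ℂ) * (D.a : ℂ) * (τ : ℂ) + (D.b : ℂ)) / (((D.Q : ℂ) * (D.R : ℂ)) * (τ : ℂ) + (D.Q : ℂ)),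
    by
    have hne := D.denom_ne_zero τ
    have hdet : ((D.Q : ℝ) * (D.a : ℝ) - (D.R : ℝ) * (D.b : ℝ)) = 1 := by exact_mod_cast D.hdet
    have hQ : (0 : ℝ) < D.Q := by exact_mod_cast D.hQ
    have him : (((D.Q : ℂ) * (D.a : ℂ) * (τ : ℂ) + (D.b : ℂ)) /
        (((D.Q : ℂ) * (D.R : ℂ)) * (τ : ℂ) + (D.Q : ℂ))).im =
        (D.Q : ℝ) * τ.im / Complex.normSq (((D.Q : ℂ) * (D.R : ℂ)) * (τ : ℂ) + (D.Q : ℂ)) := by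
      have hn : Complex.normSq (((D.Q : ℂ) * (D.R : ℂ)) * (τ : ℂ) + (D.Q : ℂ)) ≠ 0 := by
        rwa [Ne, Complex.normSq_eq_zero]
      rw [Complex.div_im]
      generalize Complex.normSq (((D.Q : ℂ) * (D.R : ℂ)) * (τ : ℂ) + (D.Q : ℂ)) = n at hn ⊢
      simp only [Complex.add_im, Complex.mul_im, Complex.add_re, Complex.mul_re,
        Complex.natCast_re, Complex.natCast_im, Complex.intCast_re, Complex.intCast_im,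
        UpperHalfPlane.coe_im, UpperHalfPlane.coe_re]
      field_simp
      linear_combination (D.Q : ℝ) * τ.im * hdet
    rw [him]
    have hpos : 0 < Complex.normSq (((D.Q : ℂ) * (D.R : ℂ)) * (τ : ℂ) + (D.Q : ℂ)) :=
      Complex.normSq_pos.mpr hne
    have := τ.im_pos
    positivity⟩

theorem coe_W (τ : ℍ) :
    (D.W τ : ℂ) = ((D.Q : ℂ) * (D.a : ℂ) * (τ : ℂ) + (D.b : ℂ)) /
      (((D.Q : ℂ) * (D.R : ℂ)) * (τ : ℂ) + (D.Q : ℂ)) := rfl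

/-- the element of `SL(2,ℤ)` with `diag(d₁ d₂, 1) W = γ diag(e₁ d₂, 1)` up to scalars. -/
def gam (d₁ e₁ d₂ f₂ : ℕ) (h1 : d₁ * e₁ = D.Q) (h2 : d₂ * f₂ = D.R) : SL(2, ℤ) :=
  ⟨!![(d₁ : ℤ) * D.a, (d₂ : ℤ) * D.b; (f₂ : ℤ), (e₁ : ℤ)], by
    rw [Matrix.det_fin_two_of]
    have h := D.hdet
    rw [← h1, ← h2] at h
    push_cast at h
    linear_combination h⟩

theorem scale_W (d₁ e₁ d₂ f₂ : ℕ) [NeZero (d₁ * d₂)] [NeZero (e₁ * d₂)]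
    (h1 : d₁ * e₁ = D.Q) (h2 : d₂ * f₂ = D.R) (τ : ℍ) :
    scale (d₁ * d₂) (D.W τ) = D.gam d₁ e₁ d₂ f₂ h1 h2 • scale (e₁ * d₂) τ := by
  apply UpperHalfPlane.ext
  rw [coe_scale, coe_W, GensExp.coe_sl2_smul, coe_scale]
  have hne := D.denom_ne_zero τ
  have hd1 : (d₁ : ℂ) ≠ 0 := by
    have : d₁ ≠ 0 := fun h => by
      rw [h, zero_mul] at h1
      exact D.hQ.ne' h1.symm
    exact_mod_cast this
  have e1 : ((D.gam d₁ e₁ d₂ f₂ h1 h2) 0 0 : ℤ) = (d₁ : ℤ) * D.a := rfl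
  have e2 : ((D.gam d₁ e₁ d₂ f₂ h1 h2) 0 1 : ℤ) = (d₂ : ℤ) * D.b := rfl
  have e3 : ((D.gam d₁ e₁ d₂ f₂ h1 h2) 1 0 : ℤ) = (f₂ : ℤ) := rfl
  have e4 : ((D.gam d₁ e₁ d₂ f₂ h1 h2) 1 1 : ℤ) = (e₁ : ℤ) := rfl
  rw [e1, e2, e3, e4]
  have hQ : (D.Q : ℂ) = (d₁ : ℂ) * (e₁ : ℂ) := by exact_mod_cast h1.symm
  have hR : (D.R : ℂ) = (d₂ : ℂ) * (f₂ : ℂ) := by exact_mod_cast h2.symm
  have hden2 : ((f₂ : ℤ) : ℂ) * (((e₁ * d₂ : ℕ) : ℂ) * (τ : ℂ)) + ((e₁ : ℤ) : ℂ) ≠ 0 := by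
    intro h0
    apply hne
    rw [hQ, hR]
    push_cast at h0 ⊢
    linear_combination (d₁ : ℂ) * h0
  rw [hQ, hR] at hne ⊢
  push_cast at hden2 ⊢
  field_simp

/-- **`j_{d₁ d₂} ∘ W = j_{e₁ d₂}`** for `d₁ e₁ = Q`, `d₂ ∣ R`. -/
theorem jd_W (d₁ e₁ d₂ f₂ : ℕ) [NeZero (d₁ * d₂)] [NeZero (e₁ * d₂)]
    (h1 : d₁ * e₁ = D.Q) (h2 : d₂ * f₂ = D.R) (τ : ℍ) :
    jd (d₁ * d₂) (D.W τ) = jd (e₁ * d₂) τ := by
  show jFun (scale (d₁ * d₂) (D.W τ)) = jFun (scale (e₁ * d₂) τ)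
  rw [D.scale_W d₁ e₁ d₂ f₂ h1 h2 τ, GensExp.jFun_smul_pt]

end ALData

end Fermat.Agent.AtkinLehner
end
end MergeWrap_Lib_BadRed_ALFun
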