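import Mathlib
import Fermat.Agent.MU.Lib.BadRed.ALAlg

section MergeWrap_Lib_BadRed_AtkinLehner -- from Lib/BadRed/AtkinLehner.lean

set_option autoImplicit false
set_option linter.unusedVariables false
set_option linter.style.haveILetI false

noncomputable section

namespace Fermat.Agent.AtkinLehner

open UpperHalfPlane Fermat.Agent.S24 ModularCurve
open scoped MatrixGroups

/-! ### `F_N = Frac (B_N)` -/

/-- the fraction field of `B_N`. -/
abbrev FB (N : ℕ) : Type := FractionRing (BN N)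

/-- the `q`-expansion on `Frac (B_N)`. -/
def expFB (N : ℕ) : FB N →ₐ[Kbar] LaurentSeries Kbar :=
  IsFractionRing.liftAlgHom (expB_injective N)

theorem expFB_algebraMap (N : ℕ) (f : BN N) :
    expFB N (algebraMap (BN N) (FB N) f) = expB N f := by
  unfold expFB
  rw [IsFractionRing.liftAlgHom_apply]
  exact IsFractionRing.lift_algebraMap _ _

theorem expFB_injective (N : ℕ) : Function.Injective (expFB N) :=
  (expFB N).toRingHom.injective

theorem fieldRange_expFB (N : ℕ) : (expFB N).fieldRange = modularFunctionFieldBar N := by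
  rw [modularFunctionFieldBar_eq_adjoin]
  exact IsFractionRing.liftAlgHom_fieldRange_eq_of_range_eq (expB_injective N) (range_expB N)

theorem expFB_mem (N : ℕ) (x : FB N) : expFB N x ∈ modularFunctionFieldBar N := by
  rw [← fieldRange_expFB]
  exact ⟨x, rfl⟩

/-- the `q`-expansion `Frac (B_N) → F_N`. -/
def toF (N : ℕ) : FB N →ₐ[Kbar] modularFunctionFieldBar N :=
  (expFB N).codRestrict (modularFunctionFieldBar N).toSubalgebra (expFB_mem N)

theorem coe_toF (N : ℕ) (x : FB N) :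
    ((toF N x : modularFunctionFieldBar N) : LaurentSeries Kbar) = expFB N x := rfl

theorem toF_bijective (N : ℕ) : Function.Bijective (toF N) := by
  refine ⟨(toF N).toRingHom.injective, fun y => ?_⟩
  have hy : (y : LaurentSeries Kbar) ∈ (expFB N).fieldRange := by
    rw [fieldRange_expFB]
    exact y.2
  obtain ⟨x, hx⟩ := hy
  exact ⟨x, Subtype.ext hx⟩

/-- the isomorphism `Frac (B_N) ≃ F_N`. -/
def equivF (N : ℕ) : FB N ≃ₐ[Kbar] modularFunctionFieldBar N :=
  AlgEquiv.ofBijective (toF N) (toF_bijective N)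

theorem coe_equivF (N : ℕ) (x : FB N) :
    ((equivF N x : modularFunctionFieldBar N) : LaurentSeries Kbar) = expFB N x := rfl

/-- `j(q^d)` as an element of `F_N`. -/
def jF (N d : ℕ) [NeZero d] (hd : d ∣ N) : modularFunctionFieldBar N :=
  ⟨qExpand Kbar d (jqModC Kbar), by
    rw [← coeffEmb_qExpand_jq]
    exact coeffEmb_mem_laurentBaseChange Kbar (jqd_mem_full N hd)⟩

theorem coe_jF (N d : ℕ) [NeZero d] (hd : d ∣ N) :
    ((jF N d hd : modularFunctionFieldBar N) : LaurentSeries Kbar) =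
      qExpand Kbar d (jqModC Kbar) := rfl

theorem equivF_jdB (N d : ℕ) [NeZero d] (hd : d ∣ N) :
    equivF N (algebraMap (BN N) (FB N) (jdB N d hd)) = jF N d hd := by
  apply Subtype.ext
  rw [coe_equivF, expFB_algebraMap, expB_jdB, coe_jF]

/-! ### the involution -/

/-- the Atkin–Lehner involution on `Frac (B_N)`. -/
def wFB (D : ALData) : FB (D.Q * D.R) ≃ₐ[Kbar] FB (D.Q * D.R) :=
  IsFractionRing.algEquivOfAlgEquiv (wB D)

theorem wFB_algebraMap (D : ALData) (f : BN (D.Q * D.R)) :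
    wFB D (algebraMap (BN (D.Q * D.R)) (FB (D.Q * D.R)) f) =
      algebraMap (BN (D.Q * D.R)) (FB (D.Q * D.R)) (wB D f) :=
  IsFractionRing.algEquivOfAlgEquiv_algebraMap (wB D) f

theorem wFB_wFB (D : ALData) (x : FB (D.Q * D.R)) : wFB D (wFB D x) = x := by
  obtain ⟨a, b, hb, rfl⟩ := IsFractionRing.div_surjective (A := BN (D.Q * D.R)) x
  rw [map_div₀, map_div₀, wFB_algebraMap, wFB_algebraMap, wFB_algebraMap, wFB_algebraMap,
    wB_wB, wB_wB]

/-- **the Atkin–Lehner involution `w_Q` of the function field of `X₀(Q R)` over `ℚ̄`.** -/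
def atkinLehner (D : ALData) :
    modularFunctionFieldBar (D.Q * D.R) ≃ₐ[Kbar] modularFunctionFieldBar (D.Q * D.R) :=
  (equivF (D.Q * D.R)).symm.trans ((wFB D).trans (equivF (D.Q * D.R)))

theorem atkinLehner_apply (D : ALData) (x : modularFunctionFieldBar (D.Q * D.R)) :
    atkinLehner D x = equivF (D.Q * D.R) (wFB D ((equivF (D.Q * D.R)).symm x)) := rfl

/-- `w_Q ∘ w_Q = id`. -/
theorem atkinLehner_atkinLehner (D : ALData) (x : modularFunctionFieldBar (D.Q * D.R)) :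
    atkinLehner D (atkinLehner D x) = x := by
  rw [atkinLehner_apply, atkinLehner_apply, AlgEquiv.symm_apply_apply, wFB_wFB,
    AlgEquiv.apply_symm_apply]

/-- **`w_Q (j(q^{d₁ d₂})) = j(q^{e₁ d₂})`** for `d₁ e₁ = Q`, `d₂ ∣ R`. -/
theorem atkinLehner_jF (D : ALData) (d₁ e₁ d₂ f₂ : ℕ) [NeZero (d₁ * d₂)] [NeZero (e₁ * d₂)]
    (h1 : d₁ * e₁ = D.Q) (h2 : d₂ * f₂ = D.R) (hd : d₁ * d₂ ∣ D.Q * D.R)
    (hd' : e₁ * d₂ ∣ D.Q * D.R) :
    atkinLehner D (jF (D.Q * D.R) (d₁ * d₂) hd) = jF (D.Q * D.R) (e₁ * d₂) hd' := by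
  rw [atkinLehner_apply, ← equivF_jdB, AlgEquiv.symm_apply_apply, wFB_algebraMap,
    wB_jdB D d₁ e₁ d₂ f₂ h1 h2 hd hd', equivF_jdB]

theorem jF_congr (N : ℕ) {d d' : ℕ} [NeZero d] [NeZero d'] (h : d = d') (hd : d ∣ N)
    (hd' : d' ∣ N) : jF N d hd = jF N d' hd' := by
  subst h
  rfl

/-- `w_Q (j) = j(q^Q)`. -/
theorem atkinLehner_j (D : ALData) [NeZero D.Q] :
    atkinLehner D (jF (D.Q * D.R) 1 (one_dvd _)) = jF (D.Q * D.R) D.Q (Dvd.intro _ rfl) := by
  haveI : NeZero (1 * 1) := ⟨by norm_num⟩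
  haveI : NeZero (D.Q * 1) := ⟨by rw [mul_one]; exact D.hQ.ne'⟩
  have h := atkinLehner_jF D 1 D.Q 1 D.R (one_mul _) (one_mul _) (by simp)
    (by rw [mul_one]; exact Dvd.intro _ rfl)
  rw [jF_congr (D.Q * D.R) (one_mul 1).symm (one_dvd _) (by simp), h]
  exact jF_congr _ (mul_one _) _ _

/-- `w_Q (j(q^Q)) = j`. -/
theorem atkinLehner_jQ (D : ALData) [NeZero D.Q] :
    atkinLehner D (jF (D.Q * D.R) D.Q (Dvd.intro _ rfl)) = jF (D.Q * D.R) 1 (one_dvd _) := by
  rw [← atkinLehner_j, atkinLehner_atkinLehner]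

/-! ### Galois equivariance -/

theorem arithmeticRingAut_jF (N d : ℕ) [NeZero d] (hd : d ∣ N) (σ : Kbar ≃ₐ[ℚ] Kbar) :
    arithmeticRingAut (modularFunctionFieldFull N) σ (jF N d hd) = jF N d hd := by
  apply Subtype.ext
  rw [coe_arithmeticRingAut_apply, coe_jF, coeffMap_qExpand, coeffMap_jqModC]

theorem atkinLehner_jF' (D : ALData) (d : ℕ) [NeZero d] (hd : d ∣ D.Q * D.R) :
    ∃ (d' : ℕ) (_ : NeZero d') (hd' : d' ∣ D.Q * D.R),
      atkinLehner D (jF (D.Q * D.R) d hd) = jF (D.Q * D.R) d' hd' := by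
  obtain ⟨d₁, e₁, d₂, f₂, h1, h2, rfl⟩ := exists_factor D hd
  obtain ⟨p1, p2, p3, p4⟩ := factor_pos D h1 h2
  haveI : NeZero (e₁ * d₂) := ⟨(Nat.mul_pos p2 p3).ne'⟩
  have hd' : e₁ * d₂ ∣ D.Q * D.R := by
    rw [← h1, ← h2]
    exact Nat.mul_dvd_mul (Dvd.intro_left d₁ rfl) (Dvd.intro f₂ rfl)
  exact ⟨e₁ * d₂, inferInstance, hd', atkinLehner_jF D d₁ e₁ d₂ f₂ h1 h2 hd hd'⟩

/-- **`w_Q` commutes with the action of `Gal(ℚ̄/ℚ)` on the coefficients.** -/
theorem atkinLehner_arithmeticRingAut (D : ALData) (σ : Kbar ≃ₐ[ℚ] Kbar)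
    (x : modularFunctionFieldBar (D.Q * D.R)) :
    atkinLehner D (arithmeticRingAut (modularFunctionFieldFull (D.Q * D.R)) σ x) =
      arithmeticRingAut (modularFunctionFieldFull (D.Q * D.R)) σ (atkinLehner D x) := by
  obtain ⟨x, hx⟩ := x
  have hx' : x ∈ IntermediateField.adjoin Kbar (serGens (D.Q * D.R)) := by
    rw [← modularFunctionFieldBar_eq_adjoin]
    exact hx
  refine IntermediateField.adjoin_induction Kbar
    (p := fun y _ => ∀ h : y ∈ modularFunctionFieldBar (D.Q * D.R),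
      atkinLehner D (arithmeticRingAut (modularFunctionFieldFull (D.Q * D.R)) σ ⟨y, h⟩) =
        arithmeticRingAut (modularFunctionFieldFull (D.Q * D.R)) σ (atkinLehner D ⟨y, h⟩))
    ?_ ?_ ?_ ?_ ?_ hx' hx
  · rintro y ⟨d, hdne, hd, rfl⟩ h
    have e : (⟨qExpand Kbar d (jqModC Kbar), h⟩ : modularFunctionFieldBar (D.Q * D.R)) =
        jF (D.Q * D.R) d hd := rfl
    obtain ⟨d', hdne', hd', hw⟩ := atkinLehner_jF' D d hd
    rw [e, arithmeticRingAut_jF, hw, arithmeticRingAut_jF]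
  · intro c h
    have e : (⟨algebraMap Kbar (LaurentSeries Kbar) c, h⟩ :
        modularFunctionFieldBar (D.Q * D.R)) =
        algebraMap Kbar (modularFunctionFieldBar (D.Q * D.R)) c := rfl
    rw [e, arithmeticRingAut_algebraMap, AlgEquiv.commutes, AlgEquiv.commutes,
      arithmeticRingAut_algebraMap]
  · intro y z hy hz ihy ihz h
    have hy' : y ∈ modularFunctionFieldBar (D.Q * D.R) := by
      rw [modularFunctionFieldBar_eq_adjoin]
      exact hy
    have hz' : z ∈ modularFunctionFieldBar (D.Q * D.R) := by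
      rw [modularFunctionFieldBar_eq_adjoin]
      exact hz
    have e : (⟨y + z, h⟩ : modularFunctionFieldBar (D.Q * D.R)) = ⟨y, hy'⟩ + ⟨z, hz'⟩ := rfl
    rw [e, map_add, map_add, map_add, map_add, ihy hy', ihz hz']
  · intro y hy ihy h
    have hy' : y ∈ modularFunctionFieldBar (D.Q * D.R) := by
      rw [modularFunctionFieldBar_eq_adjoin]
      exact hy
    have e : (⟨y⁻¹, h⟩ : modularFunctionFieldBar (D.Q * D.R)) = (⟨y, hy'⟩)⁻¹ := rfl
    rw [e, map_inv₀, map_inv₀, map_inv₀, map_inv₀, ihy hy']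
  · intro y z hy hz ihy ihz h
    have hy' : y ∈ modularFunctionFieldBar (D.Q * D.R) := by
      rw [modularFunctionFieldBar_eq_adjoin]
      exact hy
    have hz' : z ∈ modularFunctionFieldBar (D.Q * D.R) := by
      rw [modularFunctionFieldBar_eq_adjoin]
      exact hz
    have e : (⟨y * z, h⟩ : modularFunctionFieldBar (D.Q * D.R)) = ⟨y, hy'⟩ * ⟨z, hz'⟩ := rfl
    rw [e, map_mul, map_mul, map_mul, map_mul, ihy hy', ihz hz']

end Fermat.Agent.AtkinLehner
end
end MergeWrap_Lib_BadRed_AtkinLehner
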