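import Mathlib
import Fermat.Prelude.Def_ModularCurve_HeckeOperator
import Fermat.Prelude.Def_AlgebraicCurve_Correspondence
import Fermat.Agent.Lib.GaussInt.Bundle
import Fermat.Agent.MU.S24.EmbF
import Fermat.Agent.MU.Lib.Kronecker.Prod
import Fermat.Agent.Lib.FrobTrace.Residue

section MergeWrap_Lib_BadRed_KCDefs -- from Lib/BadRed/KCDefs.lean

set_option autoImplicit false

noncomputable section

namespace Fermat.Agent.BadRed

open ModularCurve Fermat.Agent.GaussInt Polynomial

/-- The Gauss valuation ring of `F_N = modularFunctionFieldBar N` at a place `A` over `ℓ`. -/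
abbrev gaussOv (N : ℕ) {ℓ : ℕ} (hℓ : ℓ.Prime) (A : ValuationSubring (AlgebraicClosure ℚ))
    (hA : A.LiesOverPrime ℓ) : ValuationSubring ↥(modularFunctionFieldBar N) :=
  gaussValSub (gaussHyp_modular (K := AlgebraicClosure ℚ) (A := A) N hℓ hA)

/-- **(KC)** Kronecker congruence for the characteristic polynomial of `j(q^ℓ)` over `F_N`. -/
def KroneckerCharpoly (N ℓ : ℕ) [NeZero N] [NeZero ℓ] : Prop :=
  ∀ (hℓ : ℓ.Prime) (A : ValuationSubring (AlgebraicClosure ℚ)) (hA : A.LiesOverPrime ℓ),
    ∃ C : Polynomial ↥(modularFunctionFieldBar N),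
      C.Monic ∧ C.natDegree = ℓ + 1 ∧
      (∀ i, C.coeff i ∈ gaussOv N hℓ A hA) ∧
      (∀ i, (C - (X - Polynomial.C (Fermat.Agent.S24.jBar N ^ ℓ)) *
            (X ^ ℓ - Polynomial.C (Fermat.Agent.S24.jBar N))).coeff i ∈
          (gaussOv N hℓ A hA).nonunits) ∧
      Polynomial.eval₂ ((heckeAlphaBar (AlgebraicClosure ℚ) N ℓ : ↥(modularFunctionFieldBar N) →+*
          ↥(modularFunctionFieldBar (N * ℓ))))
        (heckeBetaBar (AlgebraicClosure ℚ) N ℓ (Fermat.Agent.S24.jBar N)) C = 0

/-- `j(q^ℓ)` does not lie in `F_N` (for `ℓ ∤ N`; stabilisers `Γ₀(N) ⊄ Γ₀(ℓ)`). -/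
def BetaJNotMem (N ℓ : ℕ) [NeZero N] [NeZero ℓ] : Prop :=
  ∀ x : ↥(modularFunctionFieldBar N),
    heckeAlphaBar (AlgebraicClosure ℚ) N ℓ x ≠
      heckeBetaBar (AlgebraicClosure ℚ) N ℓ (Fermat.Agent.S24.jBar N)

end Fermat.Agent.BadRed
end
end MergeWrap_Lib_BadRed_KCDefs

section MergeWrap_Lib_BadRed_Interp -- from Lib/BadRed/Interp.lean

set_option autoImplicit false

namespace Fermat.Agent.BadRed

open Polynomial

noncomputable section

variable {F : Type*} [Field F] (O : Subring F)

/-- Lagrange interpolation with nodes whose differences are units of `O`: a polynomial with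
values in `O` at the nodes has coefficients in `O`. -/
theorem exists_lift_of_eval_mem (C : F[X]) (n : ℕ) (hdeg : C.natDegree ≤ n)
    (c : Fin (n + 1) → F) (hinj : Function.Injective c) (hc : ∀ i, c i ∈ O)
    (hunit : ∀ i j, i ≠ j → (c i - c j)⁻¹ ∈ O) (hval : ∀ i, C.eval (c i) ∈ O) :
    ∃ P : (↥O)[X], P.map O.subtype = C := by
  classical
  have hC : C = Lagrange.interpolate Finset.univ c (fun i => C.eval (c i)) := by
    apply Lagrange.eq_interpolate (hinj.injOn)
    rw [Finset.card_univ, Fintype.card_fin]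
    exact lt_of_le_of_lt Polynomial.degree_le_natDegree
      (by exact_mod_cast Nat.lt_succ_of_le hdeg)
  have hmemC : ∀ a ∈ O, (Polynomial.C a : F[X]) ∈ Polynomial.lifts O.subtype := by
    intro a ha
    exact Polynomial.C_mem_lifts O.subtype ⟨a, ha⟩
  have hX : (Polynomial.X : F[X]) ∈ Polynomial.lifts O.subtype := Polynomial.X_mem_lifts _
  have hneg : ∀ p ∈ Polynomial.lifts O.subtype, -p ∈ Polynomial.lifts O.subtype := by
    intro p hp
    obtain ⟨q, hq⟩ := (Polynomial.mem_lifts _).mp hp
    exact (Polynomial.mem_lifts _).mpr ⟨-q, by rw [Polynomial.map_neg, hq]⟩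
  have hbasis : ∀ i, Lagrange.basis Finset.univ c i ∈ Polynomial.lifts O.subtype := by
    intro i
    rw [Lagrange.basis]
    apply Subsemiring.prod_mem
    intro j hj
    rw [Lagrange.basisDivisor]
    apply Subsemiring.mul_mem
    · exact hmemC _ (hunit i j (Finset.ne_of_mem_erase hj).symm)
    · rw [sub_eq_add_neg]
      exact Subsemiring.add_mem _ hX (hneg _ (hmemC _ (hc j)))
  have hmem : C ∈ Polynomial.lifts O.subtype := by
    rw [hC, Lagrange.interpolate_apply]
    apply Subsemiring.sum_mem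
    intro i _
    exact Subsemiring.mul_mem _ (hmemC _ (hval i)) (hbasis i)
  exact (Polynomial.mem_lifts _).mp hmem

/-- The reduction of an interpolated polynomial is the interpolation of the reduced values. -/
theorem map_eq_of_eval_eq {κ : Type*} [Field κ] (ρ : ↥O →+* κ) (P : (↥O)[X]) (n : ℕ)
    (hdeg : P.natDegree ≤ n) (c : Fin (n + 1) → ↥O)
    (hinj : Function.Injective fun i => ρ (c i))
    (D : κ[X]) (hD : D.natDegree ≤ n)
    (hval : ∀ i, D.eval (ρ (c i)) = ρ (P.eval (c i))) :
    P.map ρ = D := by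
  classical
  apply Polynomial.eq_of_degrees_lt_of_eval_index_eq (s := Finset.univ)
    (v := fun i => ρ (c i)) (hinj.injOn)
  · rw [Finset.card_univ, Fintype.card_fin]
    exact lt_of_le_of_lt Polynomial.degree_le_natDegree
      (by exact_mod_cast Nat.lt_succ_of_le (le_trans Polynomial.natDegree_map_le hdeg))
  · rw [Finset.card_univ, Fintype.card_fin]
    exact lt_of_le_of_lt Polynomial.degree_le_natDegree
      (by exact_mod_cast Nat.lt_succ_of_le hD)
  · intro i _
    rw [Polynomial.eval_map, Polynomial.eval₂_at_apply, hval]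

end

end Fermat.Agent.BadRed
end MergeWrap_Lib_BadRed_Interp

section MergeWrap_Lib_BadRed_CharpolyAbs -- from Lib/BadRed/CharpolyAbs.lean

set_option autoImplicit false
set_option linter.style.haveILetI false

namespace Fermat.Agent.BadRed

open Polynomial AlgebraicCurve

noncomputable section

variable {K F F' : Type*} [Field K] [Field F] [Field F'] [Algebra K F] [Algebra K F']

/-- The characteristic polynomial over `F` (along `α`) of the multiplication by `x ∈ F'`. -/
def charpolyAlong (α : F →ₐ[K] F') (hfin : FiniteAlong K α) (x : F') : F[X] :=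
  letI := algebraAlong α
  haveI : Module.Finite F F' := hfin
  LinearMap.charpoly (LinearMap.mul F F' x)

/-- the norm along `α` (same as `F3G.normAlong`, restated to keep this file independent) -/
def normAlongT (α : F →ₐ[K] F') : F' →* F :=
  letI := algebraAlong α
  Algebra.norm F

theorem charpolyAlong_monic (α : F →ₐ[K] F') (hfin : FiniteAlong K α) (x : F') :
    (charpolyAlong α hfin x).Monic := by
  letI := algebraAlong α
  haveI : Module.Finite F F' := hfin
  exact LinearMap.charpoly_monic _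

theorem charpolyAlong_natDegree (α : F →ₐ[K] F') (hfin : FiniteAlong K α) (x : F') :
    (charpolyAlong α hfin x).natDegree = finrankAlong K α := by
  letI := algebraAlong α
  haveI : Module.Finite F F' := hfin
  exact LinearMap.charpoly_natDegree _

theorem aeval_charpolyAlong (α : F →ₐ[K] F') (hfin : FiniteAlong K α) (x : F') :
    (charpolyAlong α hfin x).eval₂ α.toRingHom x = 0 := by
  letI := algebraAlong α
  haveI : Module.Finite F F' := hfin
  have h := LinearMap.aeval_self_charpoly (LinearMap.mul F F' x)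
  have h2 : Polynomial.aeval x (LinearMap.charpoly (LinearMap.mul F F' x)) = 0 := by
    have h3 := congrArg (fun f : Module.End F F' => f 1) h
    have h4 : (Polynomial.aeval (LinearMap.mul F F' x)
        (LinearMap.charpoly (LinearMap.mul F F' x))) =
        LinearMap.mul F F' (Polynomial.aeval x (LinearMap.charpoly (LinearMap.mul F F' x))) := by
      have := Polynomial.aeval_algHom_apply (Algebra.lmul F F') x
        (LinearMap.charpoly (LinearMap.mul F F' x))
      exact this
    rw [h4] at h3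
    simpa using h3
  exact h2

theorem eval_charpolyAlong (α : F →ₐ[K] F') (hfin : FiniteAlong K α) (x : F') (t : F) :
    (charpolyAlong α hfin x).eval t = normAlongT α (α t - x) := by
  letI := algebraAlong α
  haveI : Module.Finite F F' := hfin
  show (LinearMap.charpoly (LinearMap.mul F F' x)).eval t = Algebra.norm F (α t - x)
  rw [LinearMap.eval_charpoly, Algebra.norm_apply]
  congr 1
  ext z
  simp only [LinearMap.sub_apply, Module.algebraMap_end_apply, LinearMap.mul_apply_apply,
    Algebra.coe_lmul_eq_mul, sub_mul]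
  rfl

/-- value at a constant: `C(c) = Norm_α (β (c - y))`. -/
theorem eval_charpolyAlong_const (α β : F →ₐ[K] F') (hfin : FiniteAlong K α) (y : F) (c : K) :
    (charpolyAlong α hfin (β y)).eval (algebraMap K F c) =
      normAlongT α (β (algebraMap K F c - y)) := by
  rw [eval_charpolyAlong]
  congr 1
  rw [map_sub β, AlgHom.commutes, AlgHom.commutes]

end

end Fermat.Agent.BadRed
end MergeWrap_Lib_BadRed_CharpolyAbs

section MergeWrap_Lib_BadRed_KroneckerCharpoly -- from Lib/BadRed/KroneckerCharpoly.lean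

set_option autoImplicit false
set_option linter.style.haveILetI false
set_option linter.unusedSectionVars false

noncomputable section

namespace Fermat.Agent.BadRed

open ModularCurve AlgebraicCurve Fermat.Agent.GaussInt Polynomial Fermat.Agent.Kronecker
  Fermat.Agent.F3G Fermat.Agent.S24 Fermat.Agent.S24.EmbFHom
open scoped MatrixGroups

variable (N ℓ : ℕ) [NeZero N] [NeZero ℓ]

/-- `θ = j(q^ℓ)` is not in `F_N`. -/
theorem betaJNotMem (hℓ : ℓ.Prime) (hℓN : ¬ ℓ ∣ N) : BetaJNotMem N ℓ := by
  intro x hx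
  obtain ⟨ζ, -, γ, hγ, hexp⟩ :=
    conjugateExpansions N ℓ ((Nat.Prime.coprime_iff_not_dvd hℓ).mpr hℓN)
  have h0 := hexp 0 hℓ.pos (jBar N)
  have hfix : γ 0 • embHom (N * ℓ) (N * ℓ) dvd_rfl (heckeBetaBar Qb N ℓ (jBar N)) =
      embHom (N * ℓ) (N * ℓ) dvd_rfl (heckeBetaBar Qb N ℓ (jBar N)) := by
    rw [← hx, embHom_heckeAlphaBar]
    exact (mem_Gamma0_iff_smul_embHom N (N * ℓ) (dvd_mul_right N ℓ) (γ 0)).mp (hγ 0) x
  rw [hfix] at h0
  have h1 : (expLL (N * ℓ) (embHom (N * ℓ) (N * ℓ) dvd_rfl
      (heckeBetaBar Qb N ℓ (jBar N)))).coeff (-(N : ℤ)) =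
      (qExpand Qb N (scaleL (ζ ^ 0) ((jBar N : ↥(modularFunctionFieldBar N)) :
        LaurentSeries Qb))).coeff (-(N : ℤ)) := by rw [h0]
  rw [coeff_expLL_beta_jBar N ℓ hℓ.one_lt, coeff_qExpand_scaleL_jBar] at h1
  exact Units.ne_zero _ h1.symm


section Values

variable (A : ValuationSubring Qb)

/-- the constant series `c - j` over `A` -/
def kcSeries (c : A) : LaurentSeries A := constA A c - jqModC A

theorem emb_kcSeries (c : A) :
    emb A (kcSeries A c) = algebraMap Qb (LaurentSeries Qb) (c : Qb) - jqModC Qb := by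
  rw [kcSeries, map_sub, emb_constA]
  congr 1
  exact coeffMap_jqModC A.subtype

theorem red_kcSeries (c : A) :
    red A (kcSeries A c) =
      algebraMap (IsLocalRing.ResidueField A) (LaurentSeries (IsLocalRing.ResidueField A))
        (IsLocalRing.residue A c) - jqModC (IsLocalRing.ResidueField A) := by
  rw [kcSeries, map_sub, red_constA]
  congr 1
  exact coeffMap_jqModC (IsLocalRing.residue A)

theorem emb_kcSeries_mem (c : A) : emb A (kcSeries A c) ∈ modularFunctionFieldBar N := by
  rw [emb_kcSeries, ← coe_jBar_eq_jqModC N]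
  exact sub_mem ((modularFunctionFieldBar N).algebraMap_mem _) (jBar N).2

theorem kcSeries_eq (c : A) :
    (⟨emb A (kcSeries A c), emb_kcSeries_mem N A c⟩ : ↥(modularFunctionFieldBar N)) =
      algebraMap Qb ↥(modularFunctionFieldBar N) (c : Qb) - jBar N := by
  apply Subtype.ext
  show emb A (kcSeries A c) = _
  rw [emb_kcSeries, ← coe_jBar_eq_jqModC N]
  rfl

variable {ℓ} in
theorem kc_qExpand_jbar (hℓ : ℓ.Prime) (hA : A.LiesOverPrime ℓ) :
    qExpand (IsLocalRing.ResidueField A) ℓ (jqModC (IsLocalRing.ResidueField A)) =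
      jqModC (IsLocalRing.ResidueField A) ^ ℓ := by
  have : Fact ℓ.Prime := ⟨hℓ⟩
  have : CharP (IsLocalRing.ResidueField A) ℓ := charP_residueField_of_liesOverPrime A ℓ hℓ hA
  rw [pow_char_eq_qExpand_frobenius ℓ, coeffMap_jqModC]

/-- **values of the charpoly at constants**: `Norm(c - θ)` is integral with reduction
`(c̄ - j̄^ℓ)(c̄^ℓ - j̄)`. -/
theorem heckeFun_const_sub_j (hℓ : ℓ.Prime) (hℓN : ¬ ℓ ∣ N) (hA : A.LiesOverPrime ℓ) (c : A) :
    ∃ z : LaurentSeries A,
      emb A z = ((heckeFun Qb N ℓ (algebraMap Qb ↥(modularFunctionFieldBar N) (c : Qb) - jBar N) :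
        ↥(modularFunctionFieldBar N)) : LaurentSeries Qb) ∧
      red A z =
        (algebraMap (IsLocalRing.ResidueField A) (LaurentSeries (IsLocalRing.ResidueField A))
            (IsLocalRing.residue A c) - jqModC (IsLocalRing.ResidueField A) ^ ℓ) *
          (algebraMap (IsLocalRing.ResidueField A) (LaurentSeries (IsLocalRing.ResidueField A))
            (IsLocalRing.residue A c ^ ℓ) - jqModC (IsLocalRing.ResidueField A)) := by
  have : Fact ℓ.Prime := ⟨hℓ⟩
  have : CharP (IsLocalRing.ResidueField A) ℓ := charP_residueField_of_liesOverPrime A ℓ hℓ hA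
  obtain ⟨z, hz, hzr⟩ := kronecker_integral N ℓ (normProductFormula N ℓ hℓ hℓN) A
    (kcSeries A c) (emb_kcSeries_mem N A c)
  refine ⟨z, ?_, ?_⟩
  · rw [hz, kcSeries_eq]
  · rw [hzr, red_kcSeries, map_sub, map_sub, kc_qExpand_jbar A hℓ hA, coeffMap_jqModC]
    congr 2
    · rw [algebraMap_laurentSeries_eq_single, qExpand_single, mul_zero]
    · rw [algebraMap_laurentSeries_eq_single, algebraMap_laurentSeries_eq_single,
        coeffMap_single]
      rfl

end Values


section Main

variable {ℓ}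
variable (hℓ : ℓ.Prime) (A : ValuationSubring Qb) (hA : A.LiesOverPrime ℓ)

/-- the Gauss ring as a subring -/
abbrev gaussOvS : Subring ↥(modularFunctionFieldBar N) := (gaussOv N hℓ A hA).toSubring

/-- the residue map of the Gauss ring, on the subring -/
def gaussOvRes : ↥(gaussOvS N hℓ A hA) →+* LaurentSeries (IsLocalRing.ResidueField A) :=
  gaussValRes (gaussHyp_modular (K := AlgebraicClosure ℚ) (A := A) N hℓ hA)

theorem gaussOvRes_apply (f : ↥(gaussOvS N hℓ A hA)) :
    gaussOvRes N hℓ A hA f =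
      gaussResFun A (modularFunctionFieldBar N)
        (((f : ↥(modularFunctionFieldBar N)) : LaurentSeries Qb)) := rfl

theorem mem_gaussOvS_of_emb {f : ↥(modularFunctionFieldBar N)} {z : LaurentSeries A}
    (hz : emb A z = (f : LaurentSeries Qb)) : f ∈ gaussOvS N hℓ A hA := by
  show (f : LaurentSeries Qb) ∈ gaussSub A (modularFunctionFieldBar N)
  rw [← hz]
  exact emb_mem_gaussSub (by rw [hz]; exact f.2)

theorem gaussOvRes_of_emb {f : ↥(gaussOvS N hℓ A hA)} {z : LaurentSeries A}
    (hz : emb A z = ((f : ↥(modularFunctionFieldBar N)) : LaurentSeries Qb)) :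
    gaussOvRes N hℓ A hA f = red A z := by
  rw [gaussOvRes_apply, ← hz]
  exact gaussResFun_emb (by rw [hz]; exact (f : ↥(modularFunctionFieldBar N)).2)

theorem const_mem_gaussOvS (c : A) :
    algebraMap Qb ↥(modularFunctionFieldBar N) (c : Qb) ∈ gaussOvS N hℓ A hA :=
  (gaussValSub_mem_iff_const (gaussHyp_modular (K := AlgebraicClosure ℚ) (A := A) N hℓ hA)
    (c : Qb)).mpr c.2

theorem gaussOvRes_const (c : A) :
    gaussOvRes N hℓ A hA ⟨_, const_mem_gaussOvS N hℓ A hA c⟩ =
      algebraMap (IsLocalRing.ResidueField A) (LaurentSeries (IsLocalRing.ResidueField A))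
        (IsLocalRing.residue A c) := by
  rw [gaussOvRes_apply]
  exact gaussResFun_algebraMap c.2

theorem jBar_mem_gaussOvS : jBar N ∈ gaussOvS N hℓ A hA :=
  mem_gaussOvS_of_emb N hℓ A hA (z := jqModC A)
    (by rw [coe_jBar_eq_jqModC]; exact coeffMap_jqModC A.subtype)

theorem gaussOvRes_jBar :
    gaussOvRes N hℓ A hA ⟨jBar N, jBar_mem_gaussOvS N hℓ A hA⟩ =
      jqModC (IsLocalRing.ResidueField A) := by
  rw [gaussOvRes_of_emb N hℓ A hA (z := jqModC A)
    (by rw [coe_jBar_eq_jqModC]; exact coeffMap_jqModC A.subtype)]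
  exact coeffMap_jqModC (IsLocalRing.residue A)

theorem gaussOvRes_eq_zero_iff (f : ↥(gaussOvS N hℓ A hA)) :
    gaussOvRes N hℓ A hA f = 0 ↔ ¬ IsUnit f :=
  gaussValRes_eq_zero_iff (gaussHyp_modular (K := AlgebraicClosure ℚ) (A := A) N hℓ hA) f

end Main


section KC

/-- `ℓ + 2` elements of `A` with pairwise distinct residues. -/
theorem exists_nodes (A : ValuationSubring Qb) (n : ℕ) :
    ∃ a : Fin n → A, Function.Injective fun i => IsLocalRing.residue A (a i) := by
  haveI : IsAlgClosed (IsLocalRing.ResidueField A) :=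
    Fermat.Agent.FrobTrace.isAlgClosed_residueField A
  haveI : Infinite (IsLocalRing.ResidueField A) := IsAlgClosed.instInfinite
  let e : ℕ ↪ IsLocalRing.ResidueField A := Infinite.natEmbedding _
  choose g hg using fun x : IsLocalRing.ResidueField A => IsLocalRing.residue_surjective x
  refine ⟨fun i => g (e i), ?_⟩
  intro i j hij
  simp only [hg] at hij
  exact Fin.val_injective (e.injective hij)

set_option maxHeartbeats 1000000 in
set_option synthInstance.maxHeartbeats 400000 in
/-- **(KC)** Kronecker congruence for the characteristic polynomial of `j(q^ℓ)` over `F_N`. -/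
theorem kroneckerCharpoly (hℓN : ¬ ℓ ∣ N) : KroneckerCharpoly N ℓ := by
  intro hℓ A hA
  classical
  set k := IsLocalRing.ResidueField A with hk
  have hfin : FiniteAlong Qb (heckeAlphaBar Qb N ℓ) := (finrank_heckeAlphaBar N ℓ hℓ hℓN).1
  have hrank : finrankAlong Qb (heckeAlphaBar Qb N ℓ) = ℓ + 1 :=
    (finrank_heckeAlphaBar N ℓ hℓ hℓN).2
  set θ := heckeBetaBar Qb N ℓ (jBar N) with hθ
  set C := charpolyAlong (heckeAlphaBar Qb N ℓ) hfin θ with hC
  have hCm : C.Monic := charpolyAlong_monic _ _ _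
  have hCd : C.natDegree = ℓ + 1 := by rw [hC, charpolyAlong_natDegree, hrank]
  have hCθ : C.eval₂ ((heckeAlphaBar Qb N ℓ : ↥(modularFunctionFieldBar N) →+*
      ↥(modularFunctionFieldBar (N * ℓ)))) θ = 0 :=
    aeval_charpolyAlong (heckeAlphaBar Qb N ℓ) hfin θ
  -- the nodes
  obtain ⟨a, ha⟩ := exists_nodes A (ℓ + 1 + 1)
  set O := gaussOvS N hℓ A hA with hO
  set ρ := gaussOvRes N hℓ A hA with hρ
  let c : Fin (ℓ + 1 + 1) → ↥(modularFunctionFieldBar N) :=
    fun i => algebraMap Qb ↥(modularFunctionFieldBar N) ((a i : A) : Qb)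
  have hcO : ∀ i, c i ∈ O := fun i => const_mem_gaussOvS N hℓ A hA (a i)
  have hcinj : Function.Injective c := by
    intro i j hij
    apply ha
    have h1 : ((a i : A) : Qb) = ((a j : A) : Qb) :=
      (algebraMap Qb ↥(modularFunctionFieldBar N)).injective hij
    show IsLocalRing.residue A (a i) = IsLocalRing.residue A (a j)
    rw [Subtype.ext h1]
  have hunit : ∀ i j, i ≠ j → (c i - c j)⁻¹ ∈ O := by
    intro i j hij
    have hne : IsLocalRing.residue A (a i - a j) ≠ 0 := by
      rw [map_sub, sub_ne_zero]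
      exact fun h => hij (ha h)
    have hu : IsUnit (a i - a j) := by
      by_contra hnu
      exact hne ((IsLocalRing.residue_eq_zero_iff _).mpr ((IsLocalRing.mem_maximalIdeal _).mpr hnu))
    obtain ⟨u, hu⟩ := hu
    have h1 : (c i - c j)⁻¹ =
        algebraMap Qb ↥(modularFunctionFieldBar N) (((u⁻¹ : (↥A)ˣ) : A) : Qb) := by
      rw [← map_sub, ← map_inv₀]
      congr 1
      have h2 : ((u : A) : Qb) * (((u⁻¹ : (↥A)ˣ) : A) : Qb) = 1 := by
        rw [← MulMemClass.coe_mul, Units.mul_inv]; rfl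
      have h3 : ((a i : A) : Qb) - ((a j : A) : Qb) = ((u : A) : Qb) := by
        rw [hu]; rfl
      rw [h3]
      exact (eq_inv_of_mul_eq_one_right h2).symm
    rw [h1]
    exact const_mem_gaussOvS N hℓ A hA _
  -- values
  have hvalz : ∀ i, ∃ z : LaurentSeries A,
      emb A z = ((C.eval (c i) : ↥(modularFunctionFieldBar N)) : LaurentSeries Qb) ∧
      red A z =
        (algebraMap k (LaurentSeries k) (IsLocalRing.residue A (a i)) - jqModC k ^ ℓ) *
          (algebraMap k (LaurentSeries k) (IsLocalRing.residue A (a i) ^ ℓ) - jqModC k) := by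
    intro i
    obtain ⟨z, hz, hzr⟩ := heckeFun_const_sub_j N ℓ A hℓ hℓN hA (a i)
    refine ⟨z, ?_, hzr⟩
    rw [hz]
    congr 1
    rw [hC, hθ, eval_charpolyAlong_const]
    rfl
  have hval : ∀ i, C.eval (c i) ∈ O := fun i => by
    obtain ⟨z, hz, -⟩ := hvalz i
    exact mem_gaussOvS_of_emb N hℓ A hA hz
  obtain ⟨P, hP⟩ := exists_lift_of_eval_mem O C (ℓ + 1) (le_of_eq hCd) c hcinj hcO hunit hval
  have hPcoeff : ∀ i, C.coeff i = ((P.coeff i : ↥O) : ↥(modularFunctionFieldBar N)) := by
    intro i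
    rw [← hP, Polynomial.coeff_map]
    rfl
  have hPdeg : P.natDegree ≤ ℓ + 1 := by
    rw [← hCd, ← hP]
    exact le_of_eq (Polynomial.natDegree_map_eq_of_injective Subtype.val_injective P).symm
  -- the reduction
  set jO : ↥O := ⟨jBar N, jBar_mem_gaussOvS N hℓ A hA⟩ with hjO
  set P₀ : (↥O)[X] := (X - Polynomial.C (jO ^ ℓ)) * (X ^ ℓ - Polynomial.C jO) with hP₀
  set D : (LaurentSeries k)[X] :=
    (X - Polynomial.C (jqModC k ^ ℓ)) * (X ^ ℓ - Polynomial.C (jqModC k)) with hD
  have hP₀ρ : P₀.map ρ = D := by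
    rw [hP₀, hD, Polynomial.map_mul, Polynomial.map_sub, Polynomial.map_sub, Polynomial.map_X,
      Polynomial.map_pow, Polynomial.map_X, Polynomial.map_C, Polynomial.map_C, map_pow,
      hρ, hjO, gaussOvRes_jBar]
  have hDdeg : D.natDegree ≤ ℓ + 1 := by
    rw [← hP₀ρ]
    refine le_trans Polynomial.natDegree_map_le ?_
    rw [hP₀]
    refine le_trans Polynomial.natDegree_mul_le ?_
    have h1 : (X - Polynomial.C (jO ^ ℓ)).natDegree ≤ 1 := by
      rw [Polynomial.natDegree_X_sub_C]
    have h2 : (X ^ ℓ - Polynomial.C jO : (↥O)[X]).natDegree ≤ ℓ := by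
      rw [Polynomial.natDegree_X_pow_sub_C]
    omega
  have hPρ : P.map ρ = D := by
    refine map_eq_of_eval_eq O ρ P (ℓ + 1) hPdeg (fun i => ⟨c i, hcO i⟩) ?_ D hDdeg ?_
    · intro i j hij
      simp only at hij
      rw [hρ, gaussOvRes_const, gaussOvRes_const] at hij
      exact ha ((algebraMap k (LaurentSeries k)).injective hij)
    · intro i
      obtain ⟨z, hz, hzr⟩ := hvalz i
      have hev : ((P.eval (⟨c i, hcO i⟩ : ↥O) : ↥O) : ↥(modularFunctionFieldBar N)) =
          C.eval (c i) := by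
        rw [← hP, Polynomial.eval_map]
        exact (Polynomial.hom_eval₂ P (RingHom.id _) O.subtype ⟨c i, hcO i⟩)
      have h1 : ρ (P.eval (⟨c i, hcO i⟩ : ↥O)) = red A z := by
        rw [hρ]
        apply gaussOvRes_of_emb
        rw [hz, hev]
      rw [h1, hzr, hρ, gaussOvRes_const, hD, Polynomial.eval_mul, Polynomial.eval_sub,
        Polynomial.eval_sub, Polynomial.eval_X, Polynomial.eval_pow, Polynomial.eval_X,
        Polynomial.eval_C, Polynomial.eval_C, map_pow]
  refine ⟨C, hCm, hCd, ?_, ?_, hCθ⟩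
  · intro i
    rw [hPcoeff]
    exact (P.coeff i).2
  · intro i
    have hP₀map : P₀.map O.subtype =
        (X - Polynomial.C (jBar N ^ ℓ)) * (X ^ ℓ - Polynomial.C (jBar N)) := by
      rw [hP₀, Polynomial.map_mul, Polynomial.map_sub, Polynomial.map_sub, Polynomial.map_X,
        Polynomial.map_pow, Polynomial.map_X, Polynomial.map_C, Polynomial.map_C, map_pow]
      rfl
    have hcoe : (C - (X - Polynomial.C (jBar N ^ ℓ)) * (X ^ ℓ - Polynomial.C (jBar N))).coeff i =
        (((P - P₀).coeff i : ↥O) : ↥(modularFunctionFieldBar N)) := by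
      rw [← hP, ← hP₀map, ← Polynomial.map_sub, Polynomial.coeff_map]
      rfl
    rw [hcoe]
    have hzero : ρ ((P - P₀).coeff i) = 0 := by
      rw [← Polynomial.coeff_map, Polynomial.map_sub, hPρ, hP₀ρ, sub_self, Polynomial.coeff_zero]
    have hnu : ¬ IsUnit ((P - P₀).coeff i) := (gaussOvRes_eq_zero_iff N hℓ A hA _).mp hzero
    rw [ValuationSubring.mem_nonunits_iff_exists_mem_maximalIdeal]
    exact ⟨((P - P₀).coeff i).2, (IsLocalRing.mem_maximalIdeal _).mpr hnu⟩

end KC

end Fermat.Agent.BadRed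
end
end MergeWrap_Lib_BadRed_KroneckerCharpoly
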