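import Mathlib
import Fermat.Agent.Lib.BadRed.FundIneq
import Fermat.Agent.MU.Lib.BadRed.KroneckerCharpoly
import Fermat.Agent.MU.Lib.Kronecker.NormProd

section MergeWrap_Lib_BadRed_TwoExt -- from Lib/BadRed/TwoExt.lean

set_option autoImplicit false

noncomputable section

namespace Fermat.Agent.BadRed

open scoped Classical
open Polynomial

variable {F₀ F : Type*} [Field F₀] [Field F] [Algebra F₀ F]

section Incl

variable {Ov : ValuationSubring F₀} {O : ValuationSubring F}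

/-- the inclusion `Ov → O` of a valuation ring into an extension. -/
def LiesOverV.incl (h : LiesOverV Ov O) : Ov →+* O :=
  ((algebraMap F₀ F).comp Ov.subtype).codRestrict O.toSubring (fun x => (h.mem_iff _).mpr x.2)

theorem LiesOverV.coe_incl (h : LiesOverV Ov O) (x : Ov) :
    ((h.incl x : O) : F) = algebraMap F₀ F x := rfl

theorem LiesOverV.isLocalHom_incl (h : LiesOverV Ov O) : IsLocalHom h.incl := by
  constructor
  intro x hx
  rw [← IsLocalRing.notMem_maximalIdeal, ← ValuationSubring.coe_mem_nonunits_iff] at hx ⊢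
  rw [h.coe_incl, h.nonunits_iff] at hx
  exact hx

/-- the map of residue fields. -/
def LiesOverV.resMap (h : LiesOverV Ov O) :
    IsLocalRing.ResidueField Ov →+* IsLocalRing.ResidueField O :=
  haveI := h.isLocalHom_incl
  IsLocalRing.ResidueField.map h.incl

theorem LiesOverV.resMap_residue (h : LiesOverV Ov O) (x : Ov) :
    h.resMap (IsLocalRing.residue Ov x) = IsLocalRing.residue O (h.incl x) := by
  have := h.isLocalHom_incl
  exact IsLocalRing.ResidueField.map_residue h.incl x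

theorem residue_eq_zero_iff_mem_nonunits (O : ValuationSubring F) (x : O) :
    IsLocalRing.residue O x = 0 ↔ (x : F) ∈ O.nonunits := by
  rw [IsLocalRing.residue_eq_zero_iff, ValuationSubring.coe_mem_nonunits_iff]

end Incl

section ResIndep

variable {Ov : ValuationSubring F₀} {O : ValuationSubring F}

/-- `1` is residually independent. -/
theorem resIndep_one (h : LiesOverV Ov O) : ResIndep Ov O (fun _ : Fin 1 => (1 : F)) := by
  refine ⟨fun _ => O.one_mem, fun a _ hsum l => ?_⟩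
  rw [Fin.sum_univ_one, mul_one, h.nonunits_iff] at hsum
  have : l = 0 := Subsingleton.elim _ _
  rw [this]
  exact hsum

/-- if `x ∈ O` is not congruent to an element of `Ov`, then `1, x` are residually independent. -/
theorem resIndep_pair (h : LiesOverV Ov O) {x : F} (hx : x ∈ O)
    (hno : ∀ g ∈ Ov, x - algebraMap F₀ F g ∉ O.nonunits) :
    ResIndep Ov O (fun i : Fin 2 => if i = 0 then (1 : F) else x) := by
  refine ⟨fun i => ?_, fun a ha hsum => ?_⟩
  · show (if i = 0 then (1 : F) else x) ∈ O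
    split_ifs
    · exact O.one_mem
    · exact hx
  · rw [Fin.sum_univ_two] at hsum
    simp only [if_true, if_false, mul_one,
      show ((1 : Fin 2) = 0) = False from by simp] at hsum
    have h1 : a 1 ∈ Ov.nonunits := by
      by_contra hu
      -- `a 1` is a unit of `Ov`
      have ha1 : a 1 ≠ 0 := by
        rintro h0
        apply hu
        rw [h0, ValuationSubring.mem_nonunits_iff, map_zero]
        exact zero_lt_one
      have hinv : (a 1)⁻¹ ∈ Ov := by
        rw [ValuationSubring.mem_nonunits_iff_or, not_or, not_not] at hu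
        exact hu.2
      apply hno (-(a 0 * (a 1)⁻¹)) (Ov.neg_mem _ (Ov.mul_mem _ _ (ha 0) hinv))
      have e : x - algebraMap F₀ F (-(a 0 * (a 1)⁻¹)) =
          algebraMap F₀ F (a 1)⁻¹ * (algebraMap F₀ F (a 0) + algebraMap F₀ F (a 1) * x) := by
        have : algebraMap F₀ F (a 1) ≠ 0 := by simpa using ha1
        simp only [map_neg, map_mul, map_inv₀]
        field_simp
        ring
      rw [e]
      exact mul_nonunits_mem ((h.mem_iff _).mpr hinv) hsum
    have h0 : a 0 ∈ Ov.nonunits := by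
      rw [← h.nonunits_iff]
      have e : algebraMap F₀ F (a 0) =
          (algebraMap F₀ F (a 0) + algebraMap F₀ F (a 1) * x) - algebraMap F₀ F (a 1) * x := by
        ring
      rw [e]
      rw [ValuationSubring.mem_nonunits_iff] at hsum ⊢
      refine lt_of_le_of_lt (Valuation.map_sub _ _ _) (max_lt hsum ?_)
      rw [← ValuationSubring.mem_nonunits_iff]
      exact nonunits_mul_mem ((h.nonunits_iff _).mpr h1) hx
    intro l
    fin_cases l
    · exact h0
    · exact h1

/-- if `θ ^ ℓ ≡ b` at `O` and the residue of `b` is not an `ℓ`-th power in the residue field of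
`Ov` (`ℓ` prime), then `1, θ, …, θ ^ (ℓ - 1)` are residually independent. -/
theorem resIndep_pow (h : LiesOverV Ov O) {ℓ : ℕ} (hℓ : ℓ.Prime) {θ : F} {b : F₀}
    (hb : b ∈ Ov) (hθ : θ ^ ℓ - algebraMap F₀ F b ∈ O.nonunits)
    (hnp : ∀ u ∈ Ov, u ^ ℓ - b ∉ Ov.nonunits) :
    ResIndep Ov O (fun i : Fin ℓ => θ ^ (i : ℕ)) := by
  have hθℓ : θ ^ ℓ ∈ O := by
    have e : θ ^ ℓ = (θ ^ ℓ - algebraMap F₀ F b) + algebraMap F₀ F b := by ring
    rw [e]
    exact O.add_mem _ _ (O.nonunits_le hθ) ((h.mem_iff _).mpr hb)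
  have hθO : θ ∈ O := by
    rw [← ValuationSubring.valuation_le_one_iff] at hθℓ ⊢
    rw [map_pow] at hθℓ
    exact (pow_le_one_iff_of_nonneg zero_le hℓ.ne_zero).mp hθℓ
  refine ⟨fun i => O.pow_mem hθO _, fun a ha hsum => ?_⟩
  -- the residue fields
  set φ := h.resMap with hφ
  set bb : IsLocalRing.ResidueField Ov := IsLocalRing.residue Ov ⟨b, hb⟩ with hbb
  set tt : IsLocalRing.ResidueField O := IsLocalRing.residue O ⟨θ, hθO⟩ with htt
  have hirr : Irreducible (X ^ ℓ - C bb) := by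
    apply X_pow_sub_C_irreducible_of_prime hℓ
    intro u hu
    obtain ⟨u, rfl⟩ := IsLocalRing.residue_surjective u
    apply hnp u u.2
    have h0 : IsLocalRing.residue Ov (u ^ ℓ - ⟨b, hb⟩) = 0 := by
      rw [map_sub, map_pow, hu, sub_self]
    rw [residue_eq_zero_iff_mem_nonunits] at h0
    exact h0
  have htℓ : tt ^ ℓ = φ bb := by
    rw [hφ, hbb, h.resMap_residue, htt, ← map_pow, ← sub_eq_zero, ← map_sub,
      residue_eq_zero_iff_mem_nonunits]
    exact hθ
  -- the polynomial of the relation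
  set P : (IsLocalRing.ResidueField Ov)[X] :=
    ∑ i : Fin ℓ, C (IsLocalRing.residue Ov ⟨a i, ha i⟩) * X ^ (i : ℕ) with hP
  have hPdeg : P.degree < ℓ := Polynomial.degree_sum_fin_lt _
  have hPev : P.eval₂ φ tt = 0 := by
    rw [hP, Polynomial.eval₂_finsetSum]
    have e : ∀ i : Fin ℓ, (C (IsLocalRing.residue Ov ⟨a i, ha i⟩) * X ^ (i : ℕ)).eval₂ φ tt =
        IsLocalRing.residue O (⟨algebraMap F₀ F (a i) * θ ^ (i : ℕ),
          O.mul_mem _ _ ((h.mem_iff _).mpr (ha i)) (O.pow_mem hθO _)⟩ : O) := by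
      intro i
      rw [Polynomial.eval₂_mul, Polynomial.eval₂_C, Polynomial.eval₂_pow, Polynomial.eval₂_X,
        hφ, h.resMap_residue, htt, ← map_pow, ← map_mul]
      rfl
    rw [Finset.sum_congr rfl fun i _ => e i, ← map_sum, residue_eq_zero_iff_mem_nonunits]
    have : ((∑ i : Fin ℓ, (⟨algebraMap F₀ F (a i) * θ ^ (i : ℕ),
          O.mul_mem _ _ ((h.mem_iff _).mpr (ha i)) (O.pow_mem hθO _)⟩ : O) : O) : F) =
        ∑ i : Fin ℓ, algebraMap F₀ F (a i) * θ ^ (i : ℕ) := by
      rw [← ValuationSubring.subtype_apply, map_sum]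
      rfl
    rw [this]
    exact hsum
  have hP0 : P = 0 := by
    by_contra hne
    have hcop : IsCoprime (X ^ ℓ - C bb) P := by
      rw [hirr.coprime_iff_not_dvd]
      intro hdvd
      have := Polynomial.degree_le_of_dvd hdvd hne
      rw [Polynomial.degree_X_pow_sub_C hℓ.pos] at this
      exact absurd (lt_of_le_of_lt this hPdeg) (lt_irrefl _)
    obtain ⟨U, V, hUV⟩ := hcop
    have := congrArg (Polynomial.eval₂ φ tt) hUV
    rw [Polynomial.eval₂_add, Polynomial.eval₂_mul, Polynomial.eval₂_mul, hPev,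
      Polynomial.eval₂_sub, Polynomial.eval₂_pow, Polynomial.eval₂_X, Polynomial.eval₂_C, htℓ,
      sub_self, mul_zero, mul_zero, add_zero, Polynomial.eval₂_one] at this
    exact zero_ne_one this
  intro l
  have hcoeff : P.coeff (l : ℕ) = IsLocalRing.residue Ov ⟨a l, ha l⟩ := by
    rw [hP, Polynomial.finsetSum_coeff]
    rw [Finset.sum_eq_single l]
    · rw [Polynomial.coeff_C_mul, Polynomial.coeff_X_pow, if_pos rfl, mul_one]
    · intro i _ hil
      rw [Polynomial.coeff_C_mul, Polynomial.coeff_X_pow, if_neg, mul_zero]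
      intro hh
      exact hil (Fin.ext hh.symm)
    · intro hl
      exact absurd (Finset.mem_univ l) hl
  rw [hP0, Polynomial.coeff_zero] at hcoeff
  have := (residue_eq_zero_iff_mem_nonunits Ov ⟨a l, ha l⟩).mp hcoeff.symm
  exact this

/-- extending a residually independent family by an element which is not congruent to a
combination of the family. -/
theorem resIndep_snoc (h : LiesOverV Ov O) {n : ℕ} {x : Fin n → F} (hx : ResIndep Ov O x)
    {y : F} (hy : y ∈ O)
    (hno : ∀ g : Fin n → F₀, (∀ i, g i ∈ Ov) →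
      y - ∑ i, algebraMap F₀ F (g i) * x i ∉ O.nonunits) :
    ResIndep Ov O (Fin.snoc x y : Fin (n + 1) → F) := by
  refine ⟨fun i => ?_, fun a ha hsum => ?_⟩
  · refine Fin.lastCases ?_ (fun i => ?_) i
    · rw [Fin.snoc_last]
      exact hy
    · rw [Fin.snoc_castSucc]
      exact hx.1 i
  · rw [Fin.sum_univ_castSucc] at hsum
    simp only [Fin.snoc_castSucc, Fin.snoc_last] at hsum
    have hsumO : ∀ g : Fin n → F₀, (∀ i, g i ∈ Ov) →
        ∑ i, algebraMap F₀ F (g i) * x i ∈ O := fun g hg =>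
      O.toSubring.sum_mem fun i _ => O.mul_mem _ _ ((h.mem_iff _).mpr (hg i)) (hx.1 i)
    have h1 : a (Fin.last n) ∈ Ov.nonunits := by
      by_contra hu
      have ha1 : a (Fin.last n) ≠ 0 := by
        rintro h0
        apply hu
        rw [h0, ValuationSubring.mem_nonunits_iff, map_zero]
        exact zero_lt_one
      have hinv : (a (Fin.last n))⁻¹ ∈ Ov := by
        rw [ValuationSubring.mem_nonunits_iff_or, not_or, not_not] at hu
        exact hu.2
      apply hno (fun i => -(a (Fin.castSucc i) * (a (Fin.last n))⁻¹))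
        (fun i => Ov.neg_mem _ (Ov.mul_mem _ _ (ha _) hinv))
      have e : y - ∑ i, algebraMap F₀ F (-(a (Fin.castSucc i) * (a (Fin.last n))⁻¹)) * x i =
          algebraMap F₀ F (a (Fin.last n))⁻¹ *
            (∑ i, algebraMap F₀ F (a (Fin.castSucc i)) * x i +
              algebraMap F₀ F (a (Fin.last n)) * y) := by
        have hne : algebraMap F₀ F (a (Fin.last n)) ≠ 0 := by simpa using ha1
        rw [mul_add, Finset.mul_sum, map_inv₀, ← mul_assoc, inv_mul_cancel₀ hne, one_mul,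
          sub_eq_add_neg, add_comm, ← Finset.sum_neg_distrib]
        congr 1
        refine Finset.sum_congr rfl fun i _ => ?_
        rw [map_neg, map_mul, map_inv₀]
        ring
      rw [e]
      exact mul_nonunits_mem ((h.mem_iff _).mpr hinv) hsum
    have h0 : ∑ i, algebraMap F₀ F (a (Fin.castSucc i)) * x i ∈ O.nonunits := by
      have e : ∑ i, algebraMap F₀ F (a (Fin.castSucc i)) * x i =
          (∑ i, algebraMap F₀ F (a (Fin.castSucc i)) * x i +
            algebraMap F₀ F (a (Fin.last n)) * y) - algebraMap F₀ F (a (Fin.last n)) * y := by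
        ring
      rw [e]
      rw [ValuationSubring.mem_nonunits_iff] at hsum ⊢
      refine lt_of_le_of_lt (Valuation.map_sub _ _ _) (max_lt hsum ?_)
      rw [← ValuationSubring.mem_nonunits_iff]
      exact nonunits_mul_mem ((h.nonunits_iff _).mpr h1) hy
    have h2 := hx.2 (fun i => a (Fin.castSucc i)) (fun i => ha _) h0
    intro l
    refine Fin.lastCases ?_ (fun i => ?_) l
    · exact h1
    · exact h2 i

end ResIndep

/-! ### The count for two and three extensions -/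

section Count

variable [FiniteDimensional F₀ F] {Ov : ValuationSubring F₀}

/-- sizes of three families -/
def cnt3 (n₁ n₂ n₃ : ℕ) : Fin 3 → ℕ
  | 0 => n₁
  | 1 => n₂
  | 2 => n₃

/-- three families as a dependent family -/
def fam3 {n₁ n₂ n₃ : ℕ} (x₁ : Fin n₁ → F) (x₂ : Fin n₂ → F) (x₃ : Fin n₃ → F) :
    (i : Fin 3) → Fin (cnt3 n₁ n₂ n₃ i) → F
  | 0 => x₁
  | 1 => x₂
  | 2 => x₃

/-- three rings as a family -/
def rng3 (O₁ O₂ O₃ : ValuationSubring F) : Fin 3 → ValuationSubring F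
  | 0 => O₁
  | 1 => O₂
  | 2 => O₃

/-- **Fundamental inequality for three extensions.** -/
theorem count_three {O₁ O₂ O₃ : ValuationSubring F}
    (h₁ : LiesOverV Ov O₁) (h₂ : LiesOverV Ov O₂) (h₃ : LiesOverV Ov O₃)
    (h12 : O₁ ≠ O₂) (h13 : O₁ ≠ O₃) (h23 : O₂ ≠ O₃)
    (c : ℕ → F₀) (hc : ∀ m, c m ∈ Ov) (hcu : ∀ m m', m ≠ m' → c m - c m' ∉ Ov.nonunits)
    {n₁ n₂ n₃ : ℕ} {x₁ : Fin n₁ → F} {x₂ : Fin n₂ → F} {x₃ : Fin n₃ → F}
    (hx₁ : ResIndep Ov O₁ x₁) (hx₂ : ResIndep Ov O₂ x₂) (hx₃ : ResIndep Ov O₃ x₃) :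
    n₁ + n₂ + n₃ ≤ Module.finrank F₀ F := by
  have key := sum_card_le_finrank Ov (rng3 O₁ O₂ O₃) (fun i => by
      fin_cases i
      · exact h₁
      · exact h₂
      · exact h₃) (fun i j hij => by
      fin_cases i <;> fin_cases j <;>
        first
          | rfl
          | exact absurd hij h12
          | exact absurd hij h13
          | exact absurd hij h23
          | exact absurd hij.symm h12
          | exact absurd hij.symm h13
          | exact absurd hij.symm h23) c hc hcu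
    (fun i => Fin (cnt3 n₁ n₂ n₃ i)) (fam3 x₁ x₂ x₃) (fun i => by
      fin_cases i
      · exact hx₁
      · exact hx₂
      · exact hx₃)
  simp only [Fintype.card_fin, Fin.sum_univ_three] at key
  exact key

/-- **Fundamental inequality for two extensions.** -/
theorem count_two {O₁ O₂ : ValuationSubring F}
    (h₁ : LiesOverV Ov O₁) (h₂ : LiesOverV Ov O₂) (h12 : O₁ ≠ O₂)
    (c : ℕ → F₀) (hc : ∀ m, c m ∈ Ov) (hcu : ∀ m m', m ≠ m' → c m - c m' ∉ Ov.nonunits)
    {n₁ n₂ : ℕ} {x₁ : Fin n₁ → F} {x₂ : Fin n₂ → F}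
    (hx₁ : ResIndep Ov O₁ x₁) (hx₂ : ResIndep Ov O₂ x₂) :
    n₁ + n₂ ≤ Module.finrank F₀ F := by
  have key := sum_card_le_finrank Ov (fun i : Fin 2 => if i = 0 then O₁ else O₂) (fun i => by
      fin_cases i
      · exact h₁
      · exact h₂) (fun i j hij => by
      fin_cases i <;> fin_cases j <;>
        first
          | rfl
          | exact absurd hij h12
          | exact absurd hij.symm h12) c hc hcu
    (fun i => Fin (if i = 0 then n₁ else n₂))
    (fun i => if h : i = 0 then fun l => x₁ (Fin.cast (by rw [if_pos h]) l)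
      else fun l => x₂ (Fin.cast (by rw [if_neg h]) l)) (fun i => by
      fin_cases i
      · exact hx₁
      · exact hx₂)
  simp only [Fintype.card_fin, Fin.sum_univ_two] at key
  exact key

end Count

/-! ### The two-extension package -/

/-- The hypotheses of the two-extension theorem. -/
structure TwoExt (Ov : ValuationSubring F₀) (O₁ O₂ : ValuationSubring F) (ℓ : ℕ) (θ : F)
    (a b : F₀) : Prop where
  over₁ : LiesOverV Ov O₁
  over₂ : LiesOverV Ov O₂
  prime : ℓ.Prime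
  finrank_eq : Module.finrank F₀ F = ℓ + 1
  ha : a ∈ Ov
  hb : b ∈ Ov
  hθ₁ : θ - algebraMap F₀ F a ∈ O₁.nonunits
  hθ₂ : θ ^ ℓ - algebraMap F₀ F b ∈ O₂.nonunits
  not_pow : ∀ u ∈ Ov, u ^ ℓ - b ∉ Ov.nonunits
  infinite : ∃ c : ℕ → F₀, (∀ m, c m ∈ Ov) ∧ ∀ m m', m ≠ m' → c m - c m' ∉ Ov.nonunits

namespace TwoExt

variable {Ov : ValuationSubring F₀} {O₁ O₂ : ValuationSubring F} {ℓ : ℕ} {θ : F} {a b : F₀}

theorem finiteDimensional (T : TwoExt Ov O₁ O₂ ℓ θ a b) : FiniteDimensional F₀ F :=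
  Module.finite_of_finrank_pos (by rw [T.finrank_eq]; exact Nat.succ_pos _)

theorem theta_mem₁ (T : TwoExt Ov O₁ O₂ ℓ θ a b) : θ ∈ O₁ := by
  have e : θ = (θ - algebraMap F₀ F a) + algebraMap F₀ F a := by ring
  rw [e]
  exact O₁.add_mem _ _ (O₁.nonunits_le T.hθ₁) ((T.over₁.mem_iff _).mpr T.ha)

theorem theta_mem₂ (T : TwoExt Ov O₁ O₂ ℓ θ a b) : θ ∈ O₂ := by
  have hθℓ : θ ^ ℓ ∈ O₂ := by
    have e : θ ^ ℓ = (θ ^ ℓ - algebraMap F₀ F b) + algebraMap F₀ F b := by ring
    rw [e]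
    exact O₂.add_mem _ _ (O₂.nonunits_le T.hθ₂) ((T.over₂.mem_iff _).mpr T.hb)
  rw [← ValuationSubring.valuation_le_one_iff] at hθℓ ⊢
  rw [map_pow] at hθℓ
  exact (pow_le_one_iff_of_nonneg zero_le T.prime.ne_zero).mp hθℓ

/-- `1, θ, …, θ ^ (ℓ - 1)` are residually independent at `O₂`. -/
theorem resIndep_pow₂ (T : TwoExt Ov O₁ O₂ ℓ θ a b) :
    ResIndep Ov O₂ (fun i : Fin ℓ => θ ^ (i : ℕ)) :=
  resIndep_pow T.over₂ T.prime T.hb T.hθ₂ T.not_pow

/-- the two extensions are different. -/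
theorem ne (T : TwoExt Ov O₁ O₂ ℓ θ a b) : O₁ ≠ O₂ := by
  intro h12
  apply T.not_pow a T.ha
  rw [← T.over₂.nonunits_iff]
  have h1 : θ - algebraMap F₀ F a ∈ O₂.nonunits := h12 ▸ T.hθ₁
  -- `θ ^ ℓ - a ^ ℓ = (θ - a) * (…)`
  have ha₂ : algebraMap F₀ F a ∈ O₂ := (T.over₂.mem_iff _).mpr T.ha
  have h2 : θ ^ ℓ - (algebraMap F₀ F a) ^ ℓ ∈ O₂.nonunits := by
    have e : θ ^ ℓ - (algebraMap F₀ F a) ^ ℓ =
        (θ - algebraMap F₀ F a) *
          ∑ i ∈ Finset.range ℓ, θ ^ i * (algebraMap F₀ F a) ^ (ℓ - 1 - i) := by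
      rw [mul_comm]
      exact (geom_sum₂_mul _ _ ℓ).symm
    rw [e]
    refine nonunits_mul_mem h1 (O₂.toSubring.sum_mem fun i _ => ?_)
    exact O₂.mul_mem _ _ (O₂.pow_mem T.theta_mem₂ _) (O₂.pow_mem ha₂ _)
  have e : algebraMap F₀ F (a ^ ℓ - b) =
      (θ ^ ℓ - algebraMap F₀ F b) - (θ ^ ℓ - (algebraMap F₀ F a) ^ ℓ) := by
    rw [map_sub, map_pow]
    ring
  rw [e]
  rw [ValuationSubring.mem_nonunits_iff] at h2 ⊢
  have h3 := T.hθ₂
  rw [ValuationSubring.mem_nonunits_iff] at h3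
  exact lt_of_le_of_lt (Valuation.map_sub _ _ _) (max_lt h3 h2)

/-- **`f₁ = 1`**: every element of `O₁` is congruent mod `m₁` to an element of `Ov`. -/
theorem residue_one (T : TwoExt Ov O₁ O₂ ℓ θ a b) {x : F} (hx : x ∈ O₁) :
    ∃ g ∈ Ov, x - algebraMap F₀ F g ∈ O₁.nonunits := by
  by_contra hno
  rw [not_exists] at hno
  have hno' : ∀ g ∈ Ov, x - algebraMap F₀ F g ∉ O₁.nonunits := fun g hg hh => hno g ⟨hg, hh⟩
  have := T.finiteDimensional
  obtain ⟨c, hc, hcu⟩ := T.infinite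
  have := count_two T.over₁ T.over₂ T.ne c hc hcu (resIndep_pair T.over₁ hx hno') T.resIndep_pow₂
  rw [T.finrank_eq] at this
  omega

/-- **Only two extensions.** -/
theorem eq_or_eq (T : TwoExt Ov O₁ O₂ ℓ θ a b) {O' : ValuationSubring F}
    (h' : LiesOverV Ov O') : O' = O₁ ∨ O' = O₂ := by
  by_contra hne
  rw [not_or] at hne
  have := T.finiteDimensional
  obtain ⟨c, hc, hcu⟩ := T.infinite
  have := count_three T.over₁ T.over₂ h' T.ne (fun h => hne.1 h.symm) (fun h => hne.2 h.symm)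
    c hc hcu (resIndep_one T.over₁) T.resIndep_pow₂ (resIndep_one h')
  rw [T.finrank_eq] at this
  omega

/-- **`f₂ = ℓ`**: every element of `O₂` is congruent mod `m₂` to a combination of
`1, θ, …, θ ^ (ℓ - 1)` with coefficients in `Ov`. -/
theorem residue_pow (T : TwoExt Ov O₁ O₂ ℓ θ a b) {x : F} (hx : x ∈ O₂) :
    ∃ g : Fin ℓ → F₀, (∀ i, g i ∈ Ov) ∧
      x - ∑ i, algebraMap F₀ F (g i) * θ ^ (i : ℕ) ∈ O₂.nonunits := by
  by_contra hno
  rw [not_exists] at hno
  have hno' : ∀ g : Fin ℓ → F₀, (∀ i, g i ∈ Ov) →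
      x - ∑ i, algebraMap F₀ F (g i) * θ ^ (i : ℕ) ∉ O₂.nonunits :=
    fun g hg hh => hno g ⟨hg, hh⟩
  have := T.finiteDimensional
  obtain ⟨c, hc, hcu⟩ := T.infinite
  have := count_two T.over₁ T.over₂ T.ne c hc hcu (resIndep_one T.over₁)
    (resIndep_snoc T.over₂ T.resIndep_pow₂ hx hno')
  rw [T.finrank_eq] at this
  omega

end TwoExt

end Fermat.Agent.BadRed
end
end MergeWrap_Lib_BadRed_TwoExt

section MergeWrap_Lib_BadRed_TwoExtExist -- from Lib/BadRed/TwoExtExist.lean

set_option autoImplicit false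

noncomputable section

namespace Fermat.Agent.BadRed

open scoped Classical
open Polynomial

variable {F₀ F : Type*} [Field F₀] [Field F] [Algebra F₀ F]

/-- a valuation subring containing `Ov` whose maximal ideal contains the maximal ideal of `Ov`
lies over `Ov`. -/
theorem liesOverV_of_le {Ov : ValuationSubring F₀} {V : ValuationSubring F}
    (h1 : ∀ x ∈ Ov, algebraMap F₀ F x ∈ V)
    (h2 : ∀ x ∈ Ov.nonunits, algebraMap F₀ F x ∈ V.nonunits) : LiesOverV Ov V := by
  ext x
  constructor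
  · intro hx
    have hx' : algebraMap F₀ F x ∈ V := hx
    by_contra hxO
    have hx0 : x ≠ 0 := by
      rintro rfl
      exact hxO Ov.zero_mem
    have hinv : x⁻¹ ∈ Ov.nonunits := by
      rw [ValuationSubring.mem_nonunits_iff_or, inv_inv]
      exact Or.inr hxO
    have h3 := mul_nonunits_mem hx' (h2 _ hinv)
    rw [← map_mul, mul_inv_cancel₀ hx0, map_one, ValuationSubring.mem_nonunits_iff, map_one] at h3
    exact lt_irrefl _ h3
  · intro hx
    exact h1 x hx

/-- **Existence of the second extension.** -/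
theorem exists_second_extension
    {Ov : ValuationSubring F₀} {ℓ : ℕ} (hℓ : ℓ.Prime) {θ : F} {a b : F₀}
    (ha : a ∈ Ov) (hb : b ∈ Ov)
    (C : F₀[X]) (hCm : C.Monic) (hCdeg : C.natDegree = ℓ + 1) (hCO : ∀ i, C.coeff i ∈ Ov)
    (hCcong : ∀ i,
      (C - (X - Polynomial.C a) * (X ^ ℓ - Polynomial.C b)).coeff i ∈ Ov.nonunits)
    (hCθ : C.eval₂ (algebraMap F₀ F) θ = 0)
    (hθ : ∀ x : F₀, algebraMap F₀ F x ≠ θ)
    (hnp : ∀ u ∈ Ov, u ^ ℓ - b ∉ Ov.nonunits) :
    ∃ O₂ : ValuationSubring F, LiesOverV Ov O₂ ∧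
      θ ^ ℓ - algebraMap F₀ F b ∈ O₂.nonunits := by
  -- the lift of `C`
  have hlift : C ∈ Polynomial.lifts (algebraMap Ov F₀) := by
    rw [Polynomial.lifts_iff_coeff_lifts]
    intro n
    exact ⟨⟨C.coeff n, hCO n⟩, rfl⟩
  obtain ⟨C₀, hC₀map, hC₀deg, hC₀m⟩ := Polynomial.lifts_and_natDegree_eq_and_monic hlift hCm
  have hC₀θ : Polynomial.aeval θ C₀ = 0 := by
    rw [Polynomial.aeval_def, IsScalarTower.algebraMap_eq Ov F₀ F, ← Polynomial.eval₂_map,
      hC₀map]
    exact hCθ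
  have hint : IsIntegral Ov θ := ⟨C₀, hC₀m, by rw [← Polynomial.aeval_def]; exact hC₀θ⟩
  -- the minimal polynomial over `Ov`
  set Q := minpoly Ov θ with hQ
  have hQm : Q.Monic := minpoly.monic hint
  obtain ⟨R, hR⟩ : Q ∣ C₀ := minpoly.isIntegrallyClosed_dvd hint hC₀θ
  -- residues
  set res := IsLocalRing.residue Ov with hres
  set bb := res ⟨b, hb⟩ with hbb
  set aa := res ⟨a, ha⟩ with haa
  set g : (IsLocalRing.ResidueField Ov)[X] := X ^ ℓ - Polynomial.C bb with hg
  have hirr : Irreducible g := by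
    apply X_pow_sub_C_irreducible_of_prime hℓ
    intro u hu
    obtain ⟨u, rfl⟩ := IsLocalRing.residue_surjective u
    apply hnp u u.2
    have h0 : IsLocalRing.residue Ov (u ^ ℓ - ⟨b, hb⟩) = 0 := by
      rw [map_sub, map_pow, hu, sub_self]
    rw [residue_eq_zero_iff_mem_nonunits] at h0
    exact h0
  have hgdeg : g.natDegree = ℓ := Polynomial.natDegree_X_pow_sub_C
  -- the congruence
  have hcong : C₀.map res = (X - Polynomial.C aa) * g := by
    have h0 : (C₀ - (X - Polynomial.C (⟨a, ha⟩ : Ov)) *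
        (X ^ ℓ - Polynomial.C (⟨b, hb⟩ : Ov))).map res = 0 := by
      ext i
      rw [Polynomial.coeff_map, Polynomial.coeff_zero, residue_eq_zero_iff_mem_nonunits]
      have e : (((C₀ - (X - Polynomial.C (⟨a, ha⟩ : Ov)) *
          (X ^ ℓ - Polynomial.C (⟨b, hb⟩ : Ov))).coeff i : Ov) : F₀) =
          (C - (X - Polynomial.C a) * (X ^ ℓ - Polynomial.C b)).coeff i := by
        rw [← hC₀map]
        have : (C₀.map (algebraMap Ov F₀) - (X - Polynomial.C a) * (X ^ ℓ - Polynomial.C b)) =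
            (C₀ - (X - Polynomial.C (⟨a, ha⟩ : Ov)) *
              (X ^ ℓ - Polynomial.C (⟨b, hb⟩ : Ov))).map (algebraMap Ov F₀) := by
          simp only [Polynomial.map_sub, Polynomial.map_mul, Polynomial.map_pow,
            Polynomial.map_X, Polynomial.map_C]
          rfl
        rw [this, Polynomial.coeff_map]
        rfl
      rw [e]
      exact hCcong i
    rw [Polynomial.map_sub, sub_eq_zero] at h0
    rw [h0]
    simp only [Polynomial.map_sub, Polynomial.map_mul, Polynomial.map_pow,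
      Polynomial.map_X, Polynomial.map_C, hg, haa, hbb]
  -- `g` divides the reduction of `Q`
  have hgQ : g ∣ Q.map res := by
    have hprod : Q.map res * R.map res = (X - Polynomial.C aa) * g := by
      rw [← Polynomial.map_mul, ← hR, hcong]
    have hdvd : g ∣ Q.map res * R.map res := by
      rw [hprod]
      exact dvd_mul_left _ _
    rcases hirr.prime.dvd_or_dvd hdvd with h | h
    · exact h
    · exfalso
      have hQ0 : Q.map res ≠ 0 := (hQm.map res).ne_zero
      have hR0 : R.map res ≠ 0 := by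
        intro h0
        rw [h0, mul_zero] at hprod
        have := (mul_eq_zero.mp hprod.symm)
        rcases this with h1 | h1
        · exact Polynomial.X_sub_C_ne_zero aa h1
        · exact hirr.ne_zero h1
      have hdegsum : (Q.map res).natDegree + (R.map res).natDegree = ℓ + 1 := by
        rw [← Polynomial.natDegree_mul hQ0 hR0, hprod,
          Polynomial.natDegree_mul (Polynomial.X_sub_C_ne_zero aa) hirr.ne_zero,
          Polynomial.natDegree_X_sub_C, hgdeg, add_comm]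
      have hRdeg : ℓ ≤ (R.map res).natDegree := by
        have := Polynomial.natDegree_le_of_dvd h hR0
        rwa [hgdeg] at this
      have hQdeg : Q.natDegree ≤ 1 := by
        rw [← hQm.natDegree_map res]
        omega
      have hQpos : 0 < Q.natDegree := minpoly.natDegree_pos hint
      have hQ1 : Q.natDegree = 1 := le_antisymm hQdeg hQpos
      obtain ⟨x, hx⟩ := minpoly.natDegree_eq_one_iff.mp hQ1
      exact hθ (x : F₀) hx
  -- the ring homomorphism `Ov[θ] → κ[X]/(g)`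
  set i : Ov →+* AdjoinRoot g := (AdjoinRoot.of g).comp res with hi
  have hev : Q.eval₂ i (AdjoinRoot.root g) = 0 := by
    rw [hi, ← Polynomial.eval₂_map, ← AdjoinRoot.algebraMap_eq, ← Polynomial.aeval_def,
      AdjoinRoot.aeval_eq, AdjoinRoot.mk_eq_zero]
    exact hgQ
  set φ₀ : AdjoinRoot Q →+* AdjoinRoot g := AdjoinRoot.lift i (AdjoinRoot.root g) hev with hφ₀
  set e := minpoly.equivAdjoin hint with he
  set φ : ↥(Algebra.adjoin Ov ({θ} : Set F)) →+* AdjoinRoot g :=
    φ₀.comp (e.symm : ↥(Algebra.adjoin Ov ({θ} : Set F)) →+* AdjoinRoot Q) with hφ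
  have hθmem : θ ∈ Algebra.adjoin Ov ({θ} : Set F) := Algebra.subset_adjoin rfl
  have hφθ : φ ⟨θ, hθmem⟩ = AdjoinRoot.root g := by
    have h1 : e (AdjoinRoot.root Q) = ⟨θ, hθmem⟩ := by
      rw [he, minpoly.coe_equivAdjoin, ← AdjoinRoot.mk_X]
      exact Subtype.ext AdjoinRoot.Minpoly.coe_toAdjoin_mk_X
    rw [hφ, RingHom.comp_apply, ← h1]
    have : (e.symm : ↥(Algebra.adjoin Ov ({θ} : Set F)) →+* AdjoinRoot Q)
        (e (AdjoinRoot.root Q)) = AdjoinRoot.root Q := e.symm_apply_apply _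
    rw [this, hφ₀, AdjoinRoot.lift_root]
  have hφalg : ∀ r : Ov, φ (algebraMap Ov _ r) = AdjoinRoot.of g (res r) := by
    intro r
    rw [hφ, RingHom.comp_apply]
    have : (e.symm : ↥(Algebra.adjoin Ov ({θ} : Set F)) →+* AdjoinRoot Q)
        (algebraMap Ov _ r) = algebraMap Ov _ r := e.symm.commutes r
    rw [this, AdjoinRoot.algebraMap_eq, hφ₀, AdjoinRoot.lift_of]
    rfl
  have : Nontrivial (AdjoinRoot g) := by
    apply AdjoinRoot.nontrivial
    rw [Polynomial.degree_X_pow_sub_C hℓ.pos]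
    exact_mod_cast hℓ.ne_zero
  -- the ideal
  set Bsub : Subring F := (Algebra.adjoin Ov ({θ} : Set F)).toSubring with hBsub
  let φ' : ↥Bsub →+* AdjoinRoot g := φ
  have hI : RingHom.ker φ' ≠ ⊤ := by
    intro htop
    have h1 : (1 : ↥Bsub) ∈ RingHom.ker φ' := by
      rw [htop]
      exact Submodule.mem_top
    rw [RingHom.mem_ker, map_one] at h1
    exact one_ne_zero h1
  obtain ⟨V, hBV, hIV⟩ := Ideal.image_subset_nonunits_valuationSubring (RingHom.ker φ') hI
  have key : ∀ y : ↥(Algebra.adjoin Ov ({θ} : Set F)), φ y = 0 → (y : F) ∈ V.nonunits := by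
    intro y hy
    apply hIV
    have hy' : (show ↥Bsub from y) ∈ RingHom.ker φ' := by
      rw [RingHom.mem_ker]
      exact hy
    exact ⟨_, hy', rfl⟩
  refine ⟨V, liesOverV_of_le ?_ ?_, ?_⟩
  · intro x hx
    apply hBV
    exact (Algebra.adjoin Ov ({θ} : Set F)).algebraMap_mem ⟨x, hx⟩
  · intro x hx
    have hxO : x ∈ Ov := Ov.nonunits_le hx
    have := key (algebraMap Ov ↥(Algebra.adjoin Ov ({θ} : Set F)) ⟨x, hxO⟩) (by
      rw [hφalg, hres, (residue_eq_zero_iff_mem_nonunits Ov ⟨x, hxO⟩).mpr hx, map_zero])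
    exact this
  · have := key ((⟨θ, hθmem⟩ : ↥(Algebra.adjoin Ov ({θ} : Set F))) ^ ℓ -
      algebraMap Ov ↥(Algebra.adjoin Ov ({θ} : Set F)) ⟨b, hb⟩) (by
      rw [map_sub, map_pow, hφθ, hφalg]
      have := AdjoinRoot.eval₂_root g
      rw [hg, Polynomial.eval₂_sub, Polynomial.eval₂_pow, Polynomial.eval₂_X,
        Polynomial.eval₂_C] at this
      exact this)
    exact this

/-- **The two-extension package from the Kronecker congruence**: given the first extension `O₁`
(with `θ ≡ a`), the second one exists. -/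
theorem exists_twoExt
    {Ov : ValuationSubring F₀} {O₁ : ValuationSubring F} (over₁ : LiesOverV Ov O₁)
    {ℓ : ℕ} (hℓ : ℓ.Prime) (hfin : Module.finrank F₀ F = ℓ + 1) {θ : F} {a b : F₀}
    (ha : a ∈ Ov) (hb : b ∈ Ov)
    (hθ₁ : θ - algebraMap F₀ F a ∈ O₁.nonunits)
    (C : F₀[X]) (hCm : C.Monic) (hCdeg : C.natDegree = ℓ + 1) (hCO : ∀ i, C.coeff i ∈ Ov)
    (hCcong : ∀ i,
      (C - (X - Polynomial.C a) * (X ^ ℓ - Polynomial.C b)).coeff i ∈ Ov.nonunits)
    (hCθ : C.eval₂ (algebraMap F₀ F) θ = 0)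
    (hθ : ∀ x : F₀, algebraMap F₀ F x ≠ θ)
    (hnp : ∀ u ∈ Ov, u ^ ℓ - b ∉ Ov.nonunits)
    (hinf : ∃ c : ℕ → F₀, (∀ m, c m ∈ Ov) ∧ ∀ m m', m ≠ m' → c m - c m' ∉ Ov.nonunits) :
    ∃ O₂ : ValuationSubring F, TwoExt Ov O₁ O₂ ℓ θ a b := by
  obtain ⟨O₂, over₂, hθ₂⟩ :=
    exists_second_extension hℓ ha hb C hCm hCdeg hCO hCcong hCθ hθ hnp
  exact ⟨O₂, ⟨over₁, over₂, hℓ, hfin, ha, hb, hθ₁, hθ₂, hnp, hinf⟩⟩

end Fermat.Agent.BadRed
end
end MergeWrap_Lib_BadRed_TwoExtExist

section MergeWrap_Lib_BadRed_TwoExtModular -- from Lib/BadRed/TwoExtModular.lean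

set_option autoImplicit false
set_option linter.style.haveILetI false

noncomputable section

namespace Fermat.Agent.BadRed

open ModularCurve Fermat.Agent.GaussInt Polynomial Fermat.Agent.S24 Fermat.Agent.Kronecker

local notation "Qb" => AlgebraicClosure ℚ

variable (N ℓ : ℕ) [NeZero N] [NeZero ℓ]

/-- `F_{Nℓ}` as an algebra over `F_N` through the inclusion `heckeAlphaBar`. -/
@[reducible] def algAlpha :
    Algebra ↥(modularFunctionFieldBar N) ↥(modularFunctionFieldBar (N * ℓ)) :=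
  (heckeAlphaBar Qb N ℓ).toRingHom.toAlgebra

attribute [local instance] algAlpha

theorem algAlpha_algebraMap (x : ↥(modularFunctionFieldBar N)) :
    algebraMap ↥(modularFunctionFieldBar N) ↥(modularFunctionFieldBar (N * ℓ)) x =
      heckeAlphaBar Qb N ℓ x := rfl

variable {ℓ}

/-- The elementary modular inputs of the two-extension theorem at a place `A` over `ℓ`. -/
structure ModFactsAt (hℓ : ℓ.Prime) (A : ValuationSubring Qb) (hA : A.LiesOverPrime ℓ) :
    Prop where
  /-- `O_∞ ∩ F_N = O_v` -/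
  liesOver : ∀ x : ↥(modularFunctionFieldBar N),
    heckeAlphaBar Qb N ℓ x ∈ gaussOv (N * ℓ) hℓ A hA ↔ x ∈ gaussOv N hℓ A hA
  /-- `j(q^ℓ) ≡ j^ℓ` -/
  theta : heckeBetaBar Qb N ℓ (jBar N) - heckeAlphaBar Qb N ℓ (jBar N ^ ℓ) ∈
    (gaussOv (N * ℓ) hℓ A hA).nonunits
  /-- the residue of `j` is not an `ℓ`-th power -/
  not_pow : ∀ u ∈ gaussOv N hℓ A hA, u ^ ℓ - jBar N ∉ (gaussOv N hℓ A hA).nonunits
  /-- the residue field is infinite -/
  infinite : ∃ c : ℕ → ↥(modularFunctionFieldBar N), (∀ m, c m ∈ gaussOv N hℓ A hA) ∧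
    ∀ m m', m ≠ m' → c m - c m' ∉ (gaussOv N hℓ A hA).nonunits

variable {N}

theorem ModFactsAt.liesOverV {hℓ : ℓ.Prime} {A : ValuationSubring Qb} {hA : A.LiesOverPrime ℓ}
    (h : ModFactsAt N hℓ A hA) :
    LiesOverV (gaussOv N hℓ A hA) (gaussOv (N * ℓ) hℓ A hA) := by
  refine SetLike.ext fun x => ?_
  rw [ValuationSubring.mem_comap, algAlpha_algebraMap]
  exact h.liesOver x

/-- **The two-extension package for `F_N ⊂ F_{Nℓ}`.** -/
theorem exists_twoExt_modular (hℓ : ℓ.Prime) (hℓN : ¬ ℓ ∣ N) {A : ValuationSubring Qb}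
    {hA : A.LiesOverPrime ℓ} (h : ModFactsAt N hℓ A hA) :
    ∃ O₂ : ValuationSubring ↥(modularFunctionFieldBar (N * ℓ)),
      TwoExt (gaussOv N hℓ A hA) (gaussOv (N * ℓ) hℓ A hA) O₂ ℓ
        (heckeBetaBar Qb N ℓ (jBar N)) (jBar N ^ ℓ) (jBar N) := by
  obtain ⟨C, hCm, hCdeg, hCO, hCcong, hCθ⟩ := kroneckerCharpoly N ℓ hℓN hℓ A hA
  have hj : jBar N ∈ gaussOv N hℓ A hA := jBar_mem_gaussOvS N hℓ A hA
  exact exists_twoExt h.liesOverV hℓ (finrank_heckeAlphaBar N ℓ hℓ hℓN).2
    ((gaussOv N hℓ A hA).pow_mem hj ℓ) hj h.theta C hCm hCdeg hCO hCcong hCθ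
    (betaJNotMem N ℓ hℓ hℓN) h.not_pow h.infinite

/-- **`f_∞ = 1`**: every element of the Gauss ring of `F_{Nℓ}` is congruent modulo its maximal
ideal to an element of the Gauss ring of `F_N`. -/
theorem residue_one_modular (hℓ : ℓ.Prime) (hℓN : ¬ ℓ ∣ N) {A : ValuationSubring Qb}
    {hA : A.LiesOverPrime ℓ} (h : ModFactsAt N hℓ A hA)
    {x : ↥(modularFunctionFieldBar (N * ℓ))} (hx : x ∈ gaussOv (N * ℓ) hℓ A hA) :
    ∃ g ∈ gaussOv N hℓ A hA,
      x - heckeAlphaBar Qb N ℓ g ∈ (gaussOv (N * ℓ) hℓ A hA).nonunits := by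
  obtain ⟨O₂, T⟩ := exists_twoExt_modular hℓ hℓN h
  exact T.residue_one hx

end Fermat.Agent.BadRed
end
end MergeWrap_Lib_BadRed_TwoExtModular
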